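import Fermat.Agent.S56.EC.HQ.Hom
import Fermat.Agent.S56.EC.Alg.GL2
import Fermat.Agent.CFT.W.Euler
import Fermat.Agent.CFT.W.Inst

/-!
# S56 / EC / Coh : the additive function `f(N) = χ(G_S,N) + dim N - dim N^c` on the representations of `Γ = Gal(F₀/ℚ)`.

`ECSetting p S Γ` : `pr : GQ ↠ Γ` with kernel an `S`-level contained in `ker (cycloChar p)`, and `c` with `c² = 1`, `χ(c) = -1`.
-/

set_option autoImplicit false

open ExtCitation Module

namespace Fermat.Agent.S56.EC

open Fermat.Agent.CFT (IsSES IsoRep chiRep levS DS IsSmooth GQ)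

/-- the setting of (EC) -/
structure ECSetting (p : ℕ) [Fact p.Prime] (S : Finset Nat.Primes) (Γ : Type) [Group Γ] where
  /-- the projection `GQ → Gal(F₀/ℚ)` -/
  pr : GQ →* Γ
  surj : Function.Surjective pr
  ker_mem : pr.ker ∈ (levS S).carrier
  chi : ∀ g, pr g = 1 → cycloChar p g = 1
  /-- a complex conjugation -/
  c : GQ
  c_sq : c * c = 1
  c_chi : cycloChar p c = -1
  hp2 : p ≠ 2
  hpS : pPrime p ∈ S

variable {p : ℕ} [Fact p.Prime] {S : Finset Nat.Primes} {Γ : Type} [Group Γ]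

namespace ECSetting

variable (E : ECSetting p S Γ)

lemma smooth {V : Type} [AddCommGroup V] [Module (ZMod p) V] (ρ : Representation (ZMod p) Γ V) :
    IsSmooth (levS S) (ρ.comp E.pr) := fun v =>
  ⟨E.pr.ker, E.ker_mem, fun s hs => by
    have h1 : E.pr s = 1 := hs
    show ρ (E.pr s) v = v
    rw [h1, map_one]; rfl⟩

include E in
lemma finite : Finite Γ := by
  have h1 : E.pr.ker.FiniteIndex := (levS S).finiteIndex _ E.ker_mem
  have h2 : Finite (GQ ⧸ E.pr.ker) := Subgroup.finite_quotient_of_finiteIndex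
  exact Finite.of_equiv _ (QuotientGroup.quotientKerEquivOfSurjective E.pr E.surj).toEquiv

include E in
lemma two_ne_zero : (2 : ZMod p) ≠ 0 := by
  intro h
  have h1 : ((2 : ℕ) : ZMod p) = 0 := by exact_mod_cast h
  rw [ZMod.natCast_eq_zero_iff] at h1
  exact E.hp2 ((Nat.prime_dvd_prime_iff_eq Fact.out Nat.prime_two).1 h1)

lemma prc_sq : E.pr E.c * E.pr E.c = 1 := by rw [← map_mul, E.c_sq, map_one]

/-- **the additive function of (EC)** -/
noncomputable def ecFun : AddFun (ZMod p) Γ where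
  toFun V _ _ ρ := (DS S).eulerChar (ρ.comp E.pr) + (finrank (ZMod p) V : ℤ) -
    (finrank (ZMod p) ↥(LinearMap.ker (ρ (E.pr E.c) - 1)) : ℤ)
  iso := by
    intro V W _ _ _ _ _ ρ σ h
    have h' : IsoRep (ρ.comp E.pr) (σ.comp E.pr) := isoRep_comp E.pr h
    obtain ⟨e1⟩ := Fermat.Agent.CFT.IsoRep.H1 (D := DS S) h'
    obtain ⟨e2⟩ := Fermat.Agent.CFT.IsoRep.H2' (levS S) h'
    obtain ⟨e0⟩ := Fermat.Agent.CFT.IsoRep.invariants' h'
    obtain ⟨e, he⟩ := h
    have e3 : finrank (ZMod p) ↥(LinearMap.ker (ρ (E.pr E.c) - 1)) =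
        finrank (ZMod p) ↥(LinearMap.ker (σ (E.pr E.c) - 1)) := by
      refine LinearEquiv.finrank_eq (e.submoduleMap _ ≪≫ₗ LinearEquiv.ofEq _ _ ?_)
      ext y
      simp only [Submodule.mem_map, LinearMap.mem_ker, LinearMap.sub_apply, Module.End.one_apply,
        LinearEquiv.coe_coe]
      constructor
      · rintro ⟨x, hx, rfl⟩
        rw [← he, ← map_sub, hx, map_zero]
      · intro hy
        refine ⟨e.symm y, ?_, e.apply_symm_apply y⟩
        apply e.injective
        rw [map_sub, he, e.apply_symm_apply, hy, map_zero]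
    unfold Fermat.Agent.CFT.Datum.eulerChar
    rw [e1.finrank_eq, e2.finrank_eq, e0.finrank_eq, e.finrank_eq, e3]
  add := by
    intro N I Q _ _ _ _ _ _ _ ρN ρI ρQ i π h
    obtain ⟨lam, Φ, w⟩ := Fermat.Agent.CFT.exists_wctx_DS E.hp2 S E.hpS
    have hN : Module.Finite (ZMod p) N := Module.Finite.of_injective i h.inj
    have hQ : Module.Finite (ZMod p) Q := Module.Finite.of_surjective π h.surj
    have h1 := Fermat.Agent.CFT.eulerChar_additive w (isSES_comp E.pr h) (E.smooth ρN) (E.smooth ρI)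
      (E.smooth ρQ)
    have h2 := finrank_ker_invol_ses E.two_ne_zero h (E.pr E.c) E.prc_sq
    have h3 : finrank (ZMod p) I = finrank (ZMod p) N + finrank (ZMod p) Q := by
      have h4 := LinearMap.finrank_range_add_finrank_ker π
      rw [LinearMap.range_eq_top.2 h.surj, finrank_top] at h4
      have h5 : LinearMap.ker π = LinearMap.range i := by
        ext x
        rw [LinearMap.mem_ker, h.exact x, LinearMap.mem_range]
      rw [h5, LinearMap.finrank_range_of_inj h.inj] at h4
      omega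
    rw [h1, h2, h3]
    push_cast
    ring

lemma ecFun_ev {V : Type} [AddCommGroup V] [Module (ZMod p) V] (ρ : Representation (ZMod p) Γ V) :
    E.ecFun.ev ρ = (DS S).eulerChar (ρ.comp E.pr) + (finrank (ZMod p) V : ℤ) -
      (finrank (ZMod p) ↥(LinearMap.ker (ρ (E.pr E.c) - 1)) : ℤ) := rfl

end ECSetting

end Fermat.Agent.S56.EC
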